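import Fermat.Agent.ES.KDefs

/-! # ES cluster, bridge `FB N → FC N`: definitions

* `coeffMap_iotaC_mem` (DS1) : `coeffMap iotaC` maps `FB N` into `FC N`
* `iotaF N : FB N →+* FC N`
* `IsKumC N m u` : Kummer generators of `FC N`
-/

set_option autoImplicit false
set_option synthInstance.maxHeartbeats 400000

open AlgebraicCurve ModularCurve CongruenceSubgroup UpperHalfPlane ModularForm
open scoped MatrixGroups Manifold

namespace Fermat.Agent.ESLib

open Fermat.Agent.S18Lib Fermat.Agent.S20Lib Fermat.Agent.S24Lib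

noncomputable section

theorem coeffMap_iotaC_algebraMap (a : Qb) :
    coeffMap iotaC (algebraMap Qb (LaurentSeries Qb) a) = algebraMap ℂ (LaurentSeries ℂ) (iotaC a) := by
  rw [algebraMap_laurentSeries_eq_single, algebraMap_laurentSeries_eq_single, coeffMap_single]

theorem coeffMap_iotaC_coeffEmb (z : LaurentSeries ℚ) :
    coeffMap iotaC (coeffEmb Qb z) = coeffEmb ℂ z := by
  rw [coeffEmb, coeffMap_coeffMap]
  exact coeffMap_congr (RingHom.ext fun c => by simp) z

/-- (DS1) -/
theorem coeffMap_iotaC_mem {N : ℕ} {x : LaurentSeries Qb} (hx : x ∈ FB N) :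
    coeffMap iotaC x ∈ FC N := by
  rw [mem_laurentBaseChange_iff] at hx
  induction hx using Subfield.closure_induction with
  | mem y hy =>
      rcases hy with ⟨a, rfl⟩ | ⟨z, hz, rfl⟩
      · rw [coeffMap_iotaC_algebraMap]
        exact (FC N).algebraMap_mem _
      · rw [coeffMap_iotaC_coeffEmb]
        exact coeffEmb_mem_laurentBaseChange ℂ hz
  | one => simp
  | add x y _ _ hx hy => simpa using add_mem hx hy
  | neg x _ hx => simpa using neg_mem hx
  | inv x _ hx => simpa using inv_mem hx
  | mul x y _ _ hx hy => simpa using mul_mem hx hy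

/-- the embedding of the function field over `ℚ̄` into the function field over `ℂ` -/
def iotaF (N : ℕ) : FB N →+* FC N where
  toFun f := ⟨coeffMap iotaC (f : LaurentSeries Qb), coeffMap_iotaC_mem f.2⟩
  map_one' := Subtype.ext (map_one (coeffMap iotaC))
  map_mul' x y := Subtype.ext (map_mul (coeffMap iotaC) (x : LaurentSeries Qb) y)
  map_zero' := Subtype.ext (map_zero (coeffMap iotaC))
  map_add' x y := Subtype.ext (map_add (coeffMap iotaC) (x : LaurentSeries Qb) y)

@[simp] theorem coe_iotaF (N : ℕ) (f : FB N) :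
    ((iotaF N f : FC N) : LaurentSeries ℂ) = coeffMap iotaC (f : LaurentSeries Qb) := rfl

theorem iotaF_algebraMap (N : ℕ) (a : Qb) :
    iotaF N (algebraMap Qb (FB N) a) = algebraMap ℂ (FC N) (iotaC a) :=
  Subtype.ext (coeffMap_iotaC_algebraMap a)

/-- Kummer generators over `ℂ` -/
def IsKumC (N m : ℕ) (u : FC N) : Prop := u ≠ 0 ∧ ∀ v : Place ℂ (FC N), (m : ℤ) ∣ v.ord u

end

end Fermat.Agent.ESLib
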