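import Fermat.Agent.ES.Bridge.Defs

/-! # ES bridge (DS3): an element of `FC N` with `ℚ̄`-rational `q`-expansion lies in `FB N` -/

set_option autoImplicit false
set_option synthInstance.maxHeartbeats 400000

open AlgebraicCurve ModularCurve CongruenceSubgroup UpperHalfPlane ModularForm IntermediateField
open scoped MatrixGroups Manifold

namespace Fermat.Agent.ESLib

open Fermat.Agent.S18Lib Fermat.Agent.S20Lib Fermat.Agent.S24Lib

/-- `ℚ̄`-linear additive maps `ℂ → ℚ̄` -/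
def ds3_Lin (ψ : ℂ →+ Qb) : Prop := ∀ (p : ℂ) (a : Qb), ψ (p * iotaC a) = ψ p * a

theorem ds3_Lin.comp_mul {ψ : ℂ →+ Qb} (h : ds3_Lin ψ) (c : ℂ) :
    ds3_Lin (ψ.comp (AddMonoidHom.mulLeft c)) := by
  intro p a
  show ψ (c * (p * iotaC a)) = ψ (c * p) * a
  rw [← mul_assoc, h]

/-- a `ℚ̄`-linear functional not vanishing at a given non-zero complex number -/
theorem ds3_exists_lin (c : ℂ) (hc : c ≠ 0) : ∃ ψ : ℂ →+ Qb, ds3_Lin ψ ∧ ψ c ≠ 0 := by
  let _ : Algebra Qb ℂ := iotaC.toAlgebra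
  have h := (Module.forall_dual_apply_eq_zero_iff Qb c).not.mpr hc
  push Not at h
  obtain ⟨φ, hφ⟩ := h
  refine ⟨φ.toAddMonoidHom, fun p a => ?_, hφ⟩
  have h1 : p * iotaC a = a • p := by
    rw [Algebra.smul_def, mul_comm]; rfl
  show φ (p * iotaC a) = φ p * a
  rw [h1, map_smul, smul_eq_mul, mul_comm]

/-- a `ℚ̄`-linear retraction of `iotaC` -/
theorem ds3_exists_retraction : ∃ ψ : ℂ →+ Qb, ∀ a : Qb, ψ (iotaC a) = a := by
  let _ : Algebra Qb ℂ := iotaC.toAlgebra
  obtain ⟨ψ, hψ⟩ := LinearMap.exists_leftInverse_of_injective (Algebra.linearMap Qb ℂ)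
    (LinearMap.ker_eq_bot.mpr iotaC.injective)
  exact ⟨ψ.toAddMonoidHom, fun a => LinearMap.congr_fun hψ a⟩

theorem ds3_span (N : ℕ) (t : LaurentSeries ℂ)
    (ht : t ∈ @Submodule.span ℂ (LaurentSeries ℂ) _ _ Algebra.toModule
      (⇑(coeffEmb ℂ) '' (modularFunctionFieldFull N : Set (LaurentSeries ℚ))))
    (ψ : ℂ →+ Qb) (hψ : ds3_Lin ψ) :
    ∃ t' ∈ FB N, ∀ y : LaurentSeries Qb, (t * coeffMap iotaC y).map ψ = t' * y := by
  induction ht using Submodule.span_induction generalizing ψ with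
  | mem x hx =>
      obtain ⟨z, hz, rfl⟩ := hx
      refine ⟨algebraMap Qb (LaurentSeries Qb) (ψ 1) * coeffEmb Qb z,
        mul_mem ((FB N).algebraMap_mem _) (coeffEmb_mem_laurentBaseChange Qb hz), fun y => ?_⟩
      rw [← coeffMap_iotaC_coeffEmb, ← map_mul, mul_assoc]
      ext n
      rw [HahnSeries.map_coeff, coeffMap_coeff, algebraMap_laurentSeries_eq_single,
        HahnSeries.coeff_single_zero_mul]
      have := hψ 1 ((coeffEmb Qb z * y).coeff n)
      rwa [one_mul] at this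
  | zero =>
      refine ⟨0, zero_mem _, fun y => ?_⟩
      rw [zero_mul, zero_mul]
      ext n
      simp
  | add x y _ _ hx hy =>
      obtain ⟨x', hx', h1⟩ := hx ψ hψ
      obtain ⟨y', hy', h2⟩ := hy ψ hψ
      refine ⟨x' + y', add_mem hx' hy', fun w => ?_⟩
      rw [add_mul, add_mul, ← h1, ← h2]
      ext n
      simp
  | smul c x _ hx =>
      obtain ⟨x', hx', h1⟩ := hx _ (hψ.comp_mul c)
      refine ⟨x', hx', fun w => ?_⟩
      rw [← h1, Algebra.smul_def, algebraMap_laurentSeries_eq_single, mul_assoc]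
      ext n
      rw [HahnSeries.map_coeff, HahnSeries.map_coeff, HahnSeries.coeff_single_zero_mul]
      rfl

theorem ds3_adjoin_le (N : ℕ) (t : LaurentSeries ℂ)
    (ht : t ∈ Algebra.adjoin ℂ
      (⇑(coeffEmb ℂ) '' (modularFunctionFieldFull N : Set (LaurentSeries ℚ)))) :
    t ∈ @Submodule.span ℂ (LaurentSeries ℂ) _ _ Algebra.toModule
      (⇑(coeffEmb ℂ) '' (modularFunctionFieldFull N : Set (LaurentSeries ℚ))) := by
  have h1 : t ∈ Subalgebra.toSubmodule (Algebra.adjoin ℂ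
      (⇑(coeffEmb ℂ) '' (modularFunctionFieldFull N : Set (LaurentSeries ℚ)))) := ht
  rw [Algebra.adjoin_eq_span] at h1
  have h2 : ((Submonoid.closure
      (⇑(coeffEmb ℂ) '' (modularFunctionFieldFull N : Set (LaurentSeries ℚ))) :
        Submonoid (LaurentSeries ℂ)) : Set (LaurentSeries ℂ)) =
      ⇑(coeffEmb ℂ) '' (modularFunctionFieldFull N : Set (LaurentSeries ℚ)) := by
    have h3 : ⇑(coeffEmb ℂ) '' (modularFunctionFieldFull N : Set (LaurentSeries ℚ)) =
        (((modularFunctionFieldFull N).toSubalgebra.toSubmonoid.map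
          (coeffEmb ℂ : LaurentSeries ℚ →* LaurentSeries ℂ) : Submonoid (LaurentSeries ℂ)) :
          Set (LaurentSeries ℂ)) := rfl
    rw [h3, Submonoid.closure_eq]
  rwa [h2] at h1

/-- (DS3) -/
theorem exists_iotaF_eq (N : ℕ) (u : FC N)
    (h : ∀ n : ℤ, (u : LaurentSeries ℂ).coeff n ∈ Set.range iotaC) : ∃ f : FB N, iotaF N f = u := by
  obtain ⟨ψ₀, hψ₀⟩ := ds3_exists_retraction
  set x : LaurentSeries Qb := (u : LaurentSeries ℂ).map ψ₀ with hx
  have hxu : coeffMap iotaC x = (u : LaurentSeries ℂ) := by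
    ext n
    obtain ⟨a, ha⟩ := h n
    rw [coeffMap_coeff, hx, HahnSeries.map_coeff, ← ha, hψ₀]
  suffices hmem : x ∈ FB N from ⟨⟨x, hmem⟩, Subtype.ext hxu⟩
  obtain ⟨r, hr, s, hs, hu⟩ := IntermediateField.mem_adjoin_iff_div.mp u.2
  by_cases hs0 : s = 0
  · have hu0 : (u : LaurentSeries ℂ) = 0 := by rw [hu, hs0, div_zero]
    have : x = 0 := by
      rw [hx, hu0]
      ext n
      simp
    rw [this]
    exact zero_mem _
  obtain ⟨n, hn⟩ : ∃ n, s.coeff n ≠ 0 := by
    by_contra hcon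
    push Not at hcon
    exact hs0 (HahnSeries.ext (funext hcon))
  obtain ⟨ψ, hψ, hψn⟩ := ds3_exists_lin _ hn
  obtain ⟨s', hs', h1⟩ := ds3_span N s (ds3_adjoin_le N s hs) ψ hψ
  obtain ⟨r', hr', h2⟩ := ds3_span N r (ds3_adjoin_le N r hr) ψ hψ
  have e1 := h1 x
  have e2 := h2 1
  have e3 := h1 1
  rw [map_one, mul_one, mul_one] at e2 e3
  have hsu : s * (u : LaurentSeries ℂ) = r := by
    rw [hu, mul_div_cancel₀ _ hs0]
  rw [hxu, hsu, e2] at e1
  have hs'0 : s' ≠ 0 := by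
    intro h0
    apply hψn
    have := congrArg (fun z : LaurentSeries Qb => z.coeff n) e3
    simpa [h0] using this
  have : x = r' / s' := by
    rw [eq_div_iff hs'0, mul_comm, e1]
  rw [this]
  exact div_mem hr' hs'

end Fermat.Agent.ESLib
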