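import Fermat.Agent.ES.Bridge.Defs

/-! # ES bridge `FB N → FC N`, leaf (GN): `FC N` is generated by `FB N` over `ℂ`; constants -/

set_option autoImplicit false
set_option synthInstance.maxHeartbeats 400000

open AlgebraicCurve ModularCurve CongruenceSubgroup UpperHalfPlane ModularForm IntermediateField
open scoped MatrixGroups Manifold

namespace Fermat.Agent.ESLib

open Fermat.Agent.S18Lib Fermat.Agent.S20Lib Fermat.Agent.S24Lib

/-- (GN) -/
theorem adjoin_range_iotaF (N : ℕ) : IntermediateField.adjoin ℂ (Set.range (iotaF N)) = ⊤ := by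
  have h : FC N ≤ IntermediateField.lift (IntermediateField.adjoin ℂ (Set.range (iotaF N))) := by
    show IntermediateField.adjoin ℂ _ ≤ _
    rw [IntermediateField.adjoin_le_iff]
    rintro _ ⟨z, hz, rfl⟩
    have hz' : coeffEmb Qb z ∈ FB N := coeffEmb_mem_laurentBaseChange Qb hz
    have e : coeffEmb ℂ z = ((iotaF N ⟨coeffEmb Qb z, hz'⟩ : FC N) : LaurentSeries ℂ) := by
      rw [coe_iotaF, coeffMap_iotaC_coeffEmb]
    rw [e]
    exact (IntermediateField.mem_lift _).mpr (IntermediateField.subset_adjoin _ _ ⟨_, rfl⟩)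
  rw [eq_top_iff]
  intro u _
  exact (IntermediateField.mem_lift u).mp (h u.2)

theorem iotaF_const (N : ℕ) (f : FB N) (h : iotaF N f ∈ Set.range (algebraMap ℂ (FC N))) :
    f ∈ Set.range (algebraMap Qb (FB N)) := by
  obtain ⟨c, hc⟩ := h
  have h1 : coeffMap iotaC (f : LaurentSeries Qb) = algebraMap ℂ (LaurentSeries ℂ) c := by
    rw [← coe_iotaF, ← hc]
    rfl
  refine ⟨(f : LaurentSeries Qb).coeff 0, Subtype.ext ?_⟩
  show algebraMap Qb (LaurentSeries Qb) _ = _
  rw [algebraMap_laurentSeries_eq_single]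
  ext n
  rw [HahnSeries.coeff_single]
  split_ifs with hn
  · rw [hn]
  · have h2 := congrArg (fun z => HahnSeries.coeff z n) h1
    simp only [coeffMap_coeff, algebraMap_laurentSeries_eq_single, HahnSeries.coeff_single,
      if_neg hn] at h2
    exact ((map_eq_zero iotaC).mp h2).symm

end Fermat.Agent.ESLib
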