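import Fermat.Agent.ES.Bridge.Gen
import Fermat.Agent.ES.PlaceFin
import Fermat.Agent.S18.RiemannLower
import Fermat.Agent.Lib.FF.ConstExtExtend

/-! # ES bridge (DS2): places of `FB N` and of `FC N`; Kummer generators -/

set_option autoImplicit false
set_option synthInstance.maxHeartbeats 400000

open AlgebraicCurve ModularCurve CongruenceSubgroup UpperHalfPlane ModularForm IntermediateField
open scoped MatrixGroups Manifold

namespace Fermat.Agent.ESLib

open Fermat.Agent.S18Lib Fermat.Agent.S20Lib Fermat.Agent.S24Lib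

theorem exists_place_restrict (N : ℕ) (v : Place ℂ (FC N)) :
    (∀ f : FB N, v.ord (iotaF N f) = 0) ∨
      ∃ (P : Place Qb (FB N)) (e : ℕ), 0 < e ∧ ∀ f : FB N, v.ord (iotaF N f) = e * P.ord f :=
  FFLib.ce_restrict iotaC (iotaF N) (iotaF_algebraMap N) v

theorem exists_place_extend (N : ℕ) [NeZero N] (P : Place Qb (FB N)) :
    ∃ v : Place ℂ (FC N), ∀ f : FB N, v.ord (iotaF N f) = P.ord f :=
  FFLib.ce_extend (isFF_FB N) (C2.isFF_FC N) iotaC (iotaF N) (iotaF_algebraMap N)
    (adjoin_range_iotaF N) (iotaF_const N) P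

theorem isKum_iff (N : ℕ) [NeZero N] (m : ℕ) (f : FB N) :
    IsKum N m f ↔ IsKumC N m (iotaF N f) := by
  constructor
  · rintro ⟨hf, h⟩
    refine ⟨(map_ne_zero (iotaF N)).mpr hf, fun v => ?_⟩
    rcases exists_place_restrict N v with h0 | ⟨P, e, -, hP⟩
    · rw [h0 f]; exact dvd_zero _
    · rw [hP f]; exact Dvd.dvd.mul_left (h P) _
  · rintro ⟨hf, h⟩
    refine ⟨(map_ne_zero (iotaF N)).mp hf, fun P => ?_⟩
    obtain ⟨v, hv⟩ := exists_place_extend N P
    rw [← hv f]
    exact h v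

end Fermat.Agent.ESLib
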