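import Fermat.Agent.ES.Bridge.Defs
import Fermat.Agent.ES.Bridge.Descent
import Fermat.Agent.ES.DDefs
import Fermat.Agent.ES.DFormal
import Fermat.Agent.ES.Deriv
import Fermat.Agent.ES.KDAbs

/-! # ES bridge `FB N → FC N`, leaf (RD): `FB N` is closed under `m`-th roots in `FC N` -/

set_option autoImplicit false
set_option synthInstance.maxHeartbeats 400000

open AlgebraicCurve ModularCurve CongruenceSubgroup UpperHalfPlane ModularForm IntermediateField
open scoped MatrixGroups Manifold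

namespace Fermat.Agent.ESLib

open Fermat.Agent.S18Lib Fermat.Agent.S20Lib Fermat.Agent.S24Lib

theorem RD_dL_pow (δ : Derivation ℚ ℂ ℂ) (x : LaurentSeries ℂ) (n : ℕ) :
    dL δ (x ^ (n + 1)) = ((n + 1 : ℕ) : LaurentSeries ℂ) * x ^ n * dL δ x := by
  induction n with
  | zero => simp
  | succ n ih =>
    rw [pow_succ, dL_mul, ih]
    push_cast
    ring

/-- (RD) `FB N` is closed under `m`-th roots in `FC N` -/
theorem exists_root_iotaF (N : ℕ) (m : ℕ) (hm : 0 < m) (f : FB N) (w : FC N)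
    (h : iotaF N f = w ^ m) : ∃ g : FB N, iotaF N g = w ∧ f = g ^ m := by
  obtain ⟨n, rfl⟩ : ∃ n, m = n + 1 := ⟨m - 1, by omega⟩
  have hinj : Function.Injective (iotaF N) := (iotaF N).injective
  by_cases hw : w = 0
  · refine ⟨0, by rw [map_zero, hw], ?_⟩
    apply hinj
    rw [h, hw, map_pow, map_zero]
  have hw' : (w : LaurentSeries ℂ) ≠ 0 := fun h0 => hw (Subtype.ext h0)
  have h1 : coeffMap iotaC (f : LaurentSeries Qb) = (w : LaurentSeries ℂ) ^ (n + 1) := by
    rw [← coe_iotaF, h]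
    rfl
  have h2 : ∀ δ : Derivation ℚ ℂ ℂ, dL δ (w : LaurentSeries ℂ) = 0 := by
    intro δ
    have h3 : dL δ (coeffMap iotaC (f : LaurentSeries Qb)) = 0 := by
      ext k
      rw [coeff_dL, coeffMap_coeff, k2_deriv_iotaC, HahnSeries.coeff_zero]
    rw [h1, RD_dL_pow] at h3
    have h4 : ((n + 1 : ℕ) : LaurentSeries ℂ) ≠ 0 := by
      have e : ((n + 1 : ℕ) : LaurentSeries ℂ) = algebraMap ℂ (LaurentSeries ℂ) ((n + 1 : ℕ) : ℂ) :=
        (map_natCast _ _).symm
      rw [e, Ne, map_eq_zero]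
      exact Nat.cast_ne_zero.mpr (Nat.succ_ne_zero n)
    rcases mul_eq_zero.mp h3 with h5 | h5
    · exact absurd h5 (mul_ne_zero h4 (pow_ne_zero _ hw'))
    · exact h5
  obtain ⟨g, hg⟩ := exists_iotaF_eq N w (fun k => by
    apply mem_range_iotaC_of_isAlgebraic
    apply isAlgebraic_of_forall_derivation
    intro δ
    rw [← coeff_dL, h2, HahnSeries.coeff_zero])
  refine ⟨g, hg, ?_⟩
  apply hinj
  rw [h, map_pow, hg]

end Fermat.Agent.ESLib
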